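import Mathlib
import Fermat.Agent.LT.A2.H361.LocFinSpec
import Fermat.Agent.LT.H767.LocalCompact

/-!
# Row LT, tower A2, station LOC-FIN, leaf `A2.03.1.1.LF.03` = `LF361.FTSBC` (helper496)

OFF-MAIN.  The Fourier transform `ftL` on `K_v²` preserves the Schwartz--Bruhat functions.

`ftsbC496 : LF361.FTSBC`, VERBATIM the Prop of `LT/A2/H361/LocFinSpec.lean`
(helper361@1f89b04c5, sha256 3a143d6b3ef16b24).

Proof (no decomposition into indicator functions is needed).  Let `k` be a nonarchimedean local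
field (nontrivially normed, ultrametric, proper), `Φ` locally constant with compact support.

* `ψ` is trivial on a ball (`char_trivial_ball496`): a continuous unitary character maps a small
  ball, which is a subgroup, into `{|z - 1| < 1}`, and the only subgroup of the circle in there is
  trivial (doubling: `1 - Re z²  ≥ 3 (1 - Re z)` for `Re z ≥ 1/2`).
* `Φ` is uniformly locally constant (`sb_uniform496`, Lebesgue number).
* `F = ftL Φ` is locally constant: `B(ξ', y)` is small for `ξ'` small and `y` in the (bounded)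
  support of `Φ`, so the two integrands agree pointwise.
* `F` has compact support: `F(ξ) = ψ(B(ξ, λ)) F(ξ)` for `λ` in a small ball `Λ` (translation
  invariance of `μ × μ`), so `F(ξ) ≠ 0` forces `ψ(B(ξ, c λ)) = 1` for all `|c| ≤ 1`, hence
  `|B(ξ, λ)| < |x₀|` (`ψ x₀ ≠ 1`), and `ξ` is bounded because the Gram determinant `4n - t²` of
  `B` is not zero.

Imports: Mathlib, the Spec closure of helper361 (byte-identical), `LT/H767/LocalCompact.lean`
(helper767, byte-identical: compactness of the integers of `K_v`).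
-/

set_option autoImplicit false
set_option linter.unusedSectionVars false
set_option linter.style.haveILetI false

open IsDedekindDomain NumberField MeasureTheory
open scoped Topology Valued

noncomputable section

namespace Fermat.Agent.LT.A2.LF496

open Fermat.Agent.LT.A2.WX467 Fermat.Agent.LT.A2.LF361

/-! ## 1. The circle has no small subgroups -/

/-- For `‖w‖ = 1`: `‖w - 1‖ < 1` iff `Re w > 1/2`. -/
theorem re_gt_half_of_norm_sub_one_lt496 {w : ℂ} (hw : ‖w‖ = 1) (h : ‖w - 1‖ < 1) :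
    1 / 2 < w.re := by
  have h1 : ‖w - 1‖ ^ 2 < 1 := by
    have h0 := norm_nonneg (w - 1)
    nlinarith
  have h2 : ‖w‖ ^ 2 = 1 := by rw [hw]; norm_num
  rw [← Complex.normSq_eq_norm_sq, Complex.normSq_apply] at h1 h2
  simp only [Complex.sub_re, Complex.one_re, Complex.sub_im, Complex.one_im, sub_zero] at h1
  nlinarith

/-- For `‖w‖ = 1`: `Re w² = 2 (Re w)² - 1`. -/
theorem re_sq_of_norm_one496 {w : ℂ} (hw : ‖w‖ = 1) : (w ^ 2).re = 2 * w.re ^ 2 - 1 := by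
  have h2 : ‖w‖ ^ 2 = 1 := by rw [hw]; norm_num
  rw [← Complex.normSq_eq_norm_sq, Complex.normSq_apply] at h2
  rw [pow_two, Complex.mul_re]
  nlinarith

/-- A point `z` of the unit circle all of whose powers are at distance `< 1` from `1` is `1`. -/
theorem eq_one_of_pow_near_one496 {z : ℂ} (hz : ‖z‖ = 1) (h : ∀ m : ℕ, ‖z ^ m - 1‖ < 1) :
    z = 1 := by
  have hn : ∀ j : ℕ, ‖z ^ (2 ^ j)‖ = 1 := fun j => by rw [norm_pow, hz, one_pow]
  have hhalf : ∀ j : ℕ, 1 / 2 < (z ^ (2 ^ j)).re := fun j =>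
    re_gt_half_of_norm_sub_one_lt496 (hn j) (h _)
  have hle : ∀ j : ℕ, (z ^ (2 ^ j)).re ≤ 1 := fun j =>
    (Complex.re_le_norm _).trans (hn j).le
  have hgrow : ∀ j : ℕ, 3 ^ j * (1 - z.re) ≤ 1 - (z ^ (2 ^ j)).re := by
    intro j
    induction j with
    | zero => simp
    | succ j ih =>
      have e : z ^ (2 ^ (j + 1)) = (z ^ (2 ^ j)) ^ 2 := by
        rw [← pow_mul, pow_succ]
      rw [e, re_sq_of_norm_one496 (hn j)]
      have h1 := hhalf j
      have h2 := hle j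
      have h3 : (3 : ℝ) ^ (j + 1) * (1 - z.re) = 3 * (3 ^ j * (1 - z.re)) := by ring
      rw [h3]
      nlinarith
  have hre : z.re = 1 := by
    have hle1 : z.re ≤ 1 := by simpa using hle 0
    by_contra hne
    have hpos : 0 < 1 - z.re := by
      rcases lt_or_eq_of_le hle1 with h1 | h1
      · linarith
      · exact absurd h1 hne
    obtain ⟨j, hj⟩ := pow_unbounded_of_one_lt ((1 - z.re)⁻¹) (by norm_num : (1 : ℝ) < 3)
    have h1 := hgrow j
    have h2 := hhalf j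
    have h3 : 1 < 3 ^ j * (1 - z.re) := by
      have := mul_lt_mul_of_pos_right hj hpos
      rwa [inv_mul_cancel₀ hpos.ne'] at this
    linarith
  have h2 : ‖z‖ ^ 2 = 1 := by rw [hz]; norm_num
  rw [← Complex.normSq_eq_norm_sq, Complex.normSq_apply, hre] at h2
  have him : z.im = 0 := by nlinarith
  exact Complex.ext (by simpa using hre) (by simpa using him)

/-! ## 2. A nonarchimedean local field -/

section Field

variable {k : Type} [NontriviallyNormedField k] [IsUltrametricDist k]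

theorem char_zero496 {ψ : k → ℂ} (hψ : IsCharL ψ) : ψ 0 = 1 := by
  have h1 : ψ 0 = ψ 0 * ψ 0 := by
    have := hψ.2.1 0 0
    rwa [add_zero] at this
  have h2 : ψ 0 ≠ 0 := by
    intro h
    have := hψ.2.2 0
    rw [h, norm_zero] at this
    exact zero_ne_one this
  have h3 : ψ 0 * (ψ 0 - 1) = 0 := by
    rw [mul_sub, mul_one, ← h1, sub_self]
  rcases mul_eq_zero.mp h3 with h | h
  · exact absurd h h2
  · exact sub_eq_zero.mp h

theorem char_nsmul496 {ψ : k → ℂ} (hψ : IsCharL ψ) (x : k) (m : ℕ) :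
    ψ ((m : k) * x) = ψ x ^ m := by
  induction m with
  | zero => simp [char_zero496 hψ]
  | succ m ih =>
    rw [Nat.cast_succ, add_mul, one_mul, hψ.2.1, ih, pow_succ]

/-- A continuous unitary character of `k` is trivial on a ball. -/
theorem char_trivial_ball496 {ψ : k → ℂ} (hψ : IsCharL ψ) :
    ∃ δ : ℝ, 0 < δ ∧ ∀ x : k, ‖x‖ < δ → ψ x = 1 := by
  have hc : ContinuousAt ψ 0 := hψ.1.continuousAt
  rw [Metric.continuousAt_iff] at hc
  obtain ⟨δ, hδ, hball⟩ := hc 1 one_pos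
  refine ⟨δ, hδ, fun x hx => ?_⟩
  apply eq_one_of_pow_near_one496 (hψ.2.2 x)
  intro m
  have hm : ‖(m : k) * x‖ < δ := by
    rw [norm_mul]
    have h1 : ‖(m : k)‖ ≤ 1 := IsUltrametricDist.norm_natCast_le_one k m
    calc ‖(m : k)‖ * ‖x‖ ≤ 1 * ‖x‖ := mul_le_mul_of_nonneg_right h1 (norm_nonneg _)
      _ = ‖x‖ := one_mul _
      _ < δ := hx
  have := hball (x := (m : k) * x) (by rwa [dist_zero_right])
  rwa [char_zero496 hψ, char_nsmul496 hψ, dist_eq_norm] at this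

/-! ### The bilinear form -/

theorem bfL_add_left496 (t n : k) (ξ ξ' y : k × k) :
    bfL t n (ξ + ξ') y = bfL t n ξ y + bfL t n ξ' y := by
  simp only [bfL, qfL, Prod.fst_add, Prod.snd_add]
  ring

theorem bfL_add_right496 (t n : k) (ξ y l : k × k) :
    bfL t n ξ (y + l) = bfL t n ξ y + bfL t n ξ l := by
  simp only [bfL, qfL, Prod.fst_add, Prod.snd_add]
  ring

theorem bfL_smul_right496 (t n : k) (ξ l : k × k) (c : k) :
    bfL t n ξ (c • l) = c * bfL t n ξ l := by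
  simp only [bfL, qfL, Prod.fst_add, Prod.snd_add, Prod.smul_fst, Prod.smul_snd, smul_eq_mul]
  ring

theorem bfL_e1_496 (t n : k) (ξ : k × k) (a : k) :
    bfL t n ξ (a, 0) = a * (2 * ξ.1 + t * ξ.2) := by
  simp only [bfL, qfL, Prod.fst_add, Prod.snd_add]
  ring

theorem bfL_e2_496 (t n : k) (ξ : k × k) (a : k) :
    bfL t n ξ (0, a) = a * (t * ξ.1 + 2 * n * ξ.2) := by
  simp only [bfL, qfL, Prod.fst_add, Prod.snd_add]
  ring

theorem bfL_expand496 (t n : k) (ξ y : k × k) :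
    bfL t n ξ y = 2 * ξ.1 * y.1 + t * ξ.1 * y.2 + t * ξ.2 * y.1 + 2 * n * ξ.2 * y.2 := by
  simp only [bfL, qfL, Prod.fst_add, Prod.snd_add]
  ring

/-- `|B(ξ, y)| ≤ C |ξ| |y|`. -/
theorem norm_bfL_le496 (t n : k) (ξ y : k × k) :
    ‖bfL t n ξ y‖ ≤ (‖(2 : k)‖ + ‖t‖ + ‖t‖ + ‖(2 : k) * n‖) * (‖ξ‖ * ‖y‖) := by
  rw [bfL_expand496]
  have h1 : ‖ξ.1‖ ≤ ‖ξ‖ := norm_fst_le ξ
  have h2 : ‖ξ.2‖ ≤ ‖ξ‖ := norm_snd_le ξ
  have h3 : ‖y.1‖ ≤ ‖y‖ := norm_fst_le y
  have h4 : ‖y.2‖ ≤ ‖y‖ := norm_snd_le y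
  have n1 := norm_nonneg ξ.1
  have n2 := norm_nonneg ξ.2
  have n3 := norm_nonneg y.1
  have n4 := norm_nonneg y.2
  have a1 : ‖2 * ξ.1 * y.1‖ ≤ ‖(2 : k)‖ * (‖ξ‖ * ‖y‖) := by
    rw [norm_mul, norm_mul, mul_assoc]
    exact mul_le_mul_of_nonneg_left (mul_le_mul h1 h3 n3 (norm_nonneg ξ)) (norm_nonneg _)
  have a2 : ‖t * ξ.1 * y.2‖ ≤ ‖t‖ * (‖ξ‖ * ‖y‖) := by
    rw [norm_mul, norm_mul, mul_assoc]
    exact mul_le_mul_of_nonneg_left (mul_le_mul h1 h4 n4 (norm_nonneg ξ)) (norm_nonneg _)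
  have a3 : ‖t * ξ.2 * y.1‖ ≤ ‖t‖ * (‖ξ‖ * ‖y‖) := by
    rw [norm_mul, norm_mul, mul_assoc]
    exact mul_le_mul_of_nonneg_left (mul_le_mul h2 h3 n3 (norm_nonneg ξ)) (norm_nonneg _)
  have a4 : ‖2 * n * ξ.2 * y.2‖ ≤ ‖(2 : k) * n‖ * (‖ξ‖ * ‖y‖) := by
    rw [norm_mul, norm_mul, mul_assoc]
    exact mul_le_mul_of_nonneg_left (mul_le_mul h2 h4 n4 (norm_nonneg ξ)) (norm_nonneg _)
  calc ‖2 * ξ.1 * y.1 + t * ξ.1 * y.2 + t * ξ.2 * y.1 + 2 * n * ξ.2 * y.2‖
      ≤ ‖2 * ξ.1 * y.1‖ + ‖t * ξ.1 * y.2‖ + ‖t * ξ.2 * y.1‖ + ‖2 * n * ξ.2 * y.2‖ :=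
        norm_add₄_le
    _ ≤ (‖(2 : k)‖ + ‖t‖ + ‖t‖ + ‖(2 : k) * n‖) * (‖ξ‖ * ‖y‖) := by
        rw [add_mul, add_mul, add_mul]
        linarith

/-! ### Schwartz--Bruhat functions are uniformly locally constant -/

theorem sb_uniform496 {Φ : k × k → ℂ} (hΦ : IsSB Φ) :
    ∃ δ : ℝ, 0 < δ ∧ ∀ y l : k × k, ‖l‖ < δ → Φ (y + l) = Φ y := by
  obtain ⟨hlc, hcs⟩ := hΦ
  have hopen : ∀ i : k × k, IsOpen {x | Φ x = Φ i} := fun i => hlc.isOpen_fiber (Φ i)
  have hcover : tsupport Φ ⊆ ⋃ i : k × k, {x | Φ x = Φ i} := fun x _ =>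
    Set.mem_iUnion.2 ⟨x, rfl⟩
  obtain ⟨δ, hδ, hleb⟩ := lebesgue_number_lemma_of_metric hcs hopen hcover
  have key : ∀ y ∈ tsupport Φ, ∀ l : k × k, ‖l‖ < δ → Φ (y + l) = Φ y := by
    intro y hy l hl
    obtain ⟨i, hi⟩ := hleb y hy
    have h1 : y + l ∈ Metric.ball y δ := by
      rw [Metric.mem_ball, dist_eq_norm, add_sub_cancel_left]
      exact hl
    have h2 : y ∈ Metric.ball y δ := Metric.mem_ball_self hδ
    have e1 : Φ (y + l) = Φ i := hi h1
    have e2 : Φ y = Φ i := hi h2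
    rw [e1, e2]
  refine ⟨δ, hδ, fun y l hl => ?_⟩
  by_cases hy : y ∈ tsupport Φ
  · exact key y hy l hl
  · by_cases hy' : y + l ∈ tsupport Φ
    · have := key (y + l) hy' (-l) (by rwa [norm_neg])
      rw [add_neg_cancel_right] at this
      exact this.symm
    · rw [image_eq_zero_of_notMem_tsupport hy, image_eq_zero_of_notMem_tsupport hy']

/-! ### Local constancy of the Fourier transform -/

theorem ftL_add_small496 (t n : k) {ψ : k → ℂ} (μ : @Measure k (borel k)) (hψ : IsCharL ψ)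
    {Φ : k × k → ℂ} (hΦ : IsSB Φ) :
    ∃ δ : ℝ, 0 < δ ∧ ∀ ξ ξ' : k × k, ‖ξ'‖ < δ →
      ftL t n ψ μ Φ (ξ + ξ') = ftL t n ψ μ Φ ξ := by
  obtain ⟨δψ, hδψ, htriv⟩ := char_trivial_ball496 hψ
  obtain ⟨M, hM⟩ := hΦ.2.isBounded.exists_norm_le
  set C : ℝ := ‖(2 : k)‖ + ‖t‖ + ‖t‖ + ‖(2 : k) * n‖ + 1 with hC
  have hCpos : 0 < C := by
    have := norm_nonneg (2 : k)
    have := norm_nonneg t
    have := norm_nonneg ((2 : k) * n)
    rw [hC]; linarith
  set M' : ℝ := max M 0 + 1 with hM'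
  have hM'pos : 0 < M' := by
    have := le_max_right M 0
    rw [hM']; linarith
  refine ⟨δψ / (C * M'), div_pos hδψ (mul_pos hCpos hM'pos), fun ξ ξ' hξ' => ?_⟩
  unfold ftL intL
  congr 1
  funext y
  show Φ y * ψ (bfL t n (ξ + ξ') y) = Φ y * ψ (bfL t n ξ y)
  by_cases hy : Φ y = 0
  · rw [hy, zero_mul, zero_mul]
  · have hyS : y ∈ tsupport Φ := subset_tsupport Φ hy
    have hyM : ‖y‖ ≤ M' := by
      have := hM y hyS
      have := le_max_left M 0
      rw [hM']; linarith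
    have hsmall : ‖bfL t n ξ' y‖ < δψ := by
      have h1 := norm_bfL_le496 t n ξ' y
      have h2 : ‖ξ'‖ * ‖y‖ ≤ ‖ξ'‖ * M' :=
        mul_le_mul_of_nonneg_left hyM (norm_nonneg _)
      have h3 : ‖ξ'‖ * M' < δψ / (C * M') * M' := mul_lt_mul_of_pos_right hξ' hM'pos
      have h4 : δψ / (C * M') * M' = δψ / C := by
        field_simp
      have h5 : (‖(2 : k)‖ + ‖t‖ + ‖t‖ + ‖(2 : k) * n‖) * (‖ξ'‖ * ‖y‖) ≤ C * (‖ξ'‖ * ‖y‖) := by
        apply mul_le_mul_of_nonneg_right _ (mul_nonneg (norm_nonneg _) (norm_nonneg _))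
        rw [hC]; linarith
      have h6 : C * (‖ξ'‖ * ‖y‖) < C * (δψ / C) := by
        apply mul_lt_mul_of_pos_left _ hCpos
        calc ‖ξ'‖ * ‖y‖ ≤ ‖ξ'‖ * M' := h2
          _ < δψ / (C * M') * M' := h3
          _ = δψ / C := h4
      have h7 : C * (δψ / C) = δψ := by field_simp
      linarith
    rw [bfL_add_left496, hψ.2.1, htriv _ hsmall, mul_one]

theorem ftL_locallyConstant496 (t n : k) {ψ : k → ℂ} (μ : @Measure k (borel k))
    (hψ : IsCharL ψ) {Φ : k × k → ℂ} (hΦ : IsSB Φ) :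
    IsLocallyConstant (ftL t n ψ μ Φ) := by
  obtain ⟨δ, hδ, h⟩ := ftL_add_small496 t n μ hψ hΦ
  rw [IsLocallyConstant.iff_exists_open]
  intro ξ
  refine ⟨Metric.ball ξ δ, Metric.isOpen_ball, Metric.mem_ball_self hδ, fun x' hx' => ?_⟩
  have e : x' = ξ + (x' - ξ) := by abel
  rw [e]
  apply h
  rwa [Metric.mem_ball, dist_eq_norm] at hx'

/-! ### Translation invariance of `μ × μ` -/

section Haar

variable [ProperSpace k]

/-- The integral over `k²` is invariant under translations. -/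
theorem intL_add_right496 {μ : @Measure k (borel k)} (hμ : IsHaarL μ) (g : k × k → ℂ)
    (l : k × k) : intL μ (fun y => g (y + l)) = intL μ g := by
  letI : MeasurableSpace k := borel k
  haveI : BorelSpace k := ⟨rfl⟩
  haveI : IsFiniteMeasureOnCompacts μ := ⟨fun C hC => hμ.2.1 C hC⟩
  have hpres : ∀ a : k, MeasurePreserving (fun y : k => y + a) μ μ := by
    intro a
    have hm : Measurable (fun y : k => y + a) := (continuous_add_const a).measurable
    refine ⟨hm, ?_⟩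
    ext S hS
    rw [Measure.map_apply hm hS]
    have e : (fun y : k => y + a) ⁻¹' S = (fun y : k => -a + y) '' S := by
      ext y
      simp only [Set.mem_preimage, Set.mem_image]
      constructor
      · intro hy
        exact ⟨y + a, hy, by ring⟩
      · rintro ⟨z, hz, rfl⟩
        have : -a + z + a = z := by ring
        rwa [this]
    rw [e]
    exact hμ.1 (-a) S
  have hprod : MeasurePreserving (Prod.map (fun y : k => y + l.1) (fun y : k => y + l.2))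
      (μ.prod μ) (μ.prod μ) := (hpres l.1).prod (hpres l.2)
  let e₁ : k ≃ᵐ k := (Homeomorph.addRight l.1).toMeasurableEquiv
  let e₂ : k ≃ᵐ k := (Homeomorph.addRight l.2).toMeasurableEquiv
  let e : k × k ≃ᵐ k × k := MeasurableEquiv.prodCongr e₁ e₂
  have he : (e : k × k → k × k) = Prod.map (fun y : k => y + l.1) (fun y : k => y + l.2) := by
    funext y
    rfl
  have hpe : MeasurePreserving e (μ.prod μ) (μ.prod μ) := by
    rw [he]
    exact hprod
  have := hpe.integral_comp' g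
  unfold intL
  rw [← this]
  rfl

/-- `F(ξ) = ψ(B(ξ, λ)) F(ξ)` when `Φ` is invariant under the translation by `λ`. -/
theorem ftL_eq_mul496 (t n : k) {ψ : k → ℂ} {μ : @Measure k (borel k)} (hψ : IsCharL ψ)
    (hμ : IsHaarL μ) {Φ : k × k → ℂ} (l : k × k) (hl : ∀ y, Φ (y + l) = Φ y) (ξ : k × k) :
    ftL t n ψ μ Φ ξ = ψ (bfL t n ξ l) * ftL t n ψ μ Φ ξ := by
  have h1 : ftL t n ψ μ Φ ξ
      = intL μ (fun y => (fun z => Φ z * ψ (bfL t n ξ z)) (y + l)) := by
    unfold ftL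
    exact (intL_add_right496 hμ (fun z => Φ z * ψ (bfL t n ξ z)) l).symm
  have h2 : (fun y => (fun z => Φ z * ψ (bfL t n ξ z)) (y + l))
      = fun y => ψ (bfL t n ξ l) * (Φ y * ψ (bfL t n ξ y)) := by
    funext y
    show Φ (y + l) * ψ (bfL t n ξ (y + l)) = ψ (bfL t n ξ l) * (Φ y * ψ (bfL t n ξ y))
    rw [hl, bfL_add_right496, hψ.2.1]
    ring
  rw [h2] at h1
  have h3 : intL μ (fun y => ψ (bfL t n ξ l) * (Φ y * ψ (bfL t n ξ y)))
      = ψ (bfL t n ξ l) * intL μ (fun y => Φ y * ψ (bfL t n ξ y)) := by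
    unfold intL
    exact integral_const_mul _ _
  rw [h3] at h1
  exact h1

/-- The support of the Fourier transform is bounded. -/
theorem ftL_support_bounded496 (t n : k) {ψ : k → ℂ} {μ : @Measure k (borel k)}
    (hD : t ^ 2 - 4 * n ≠ 0) (hψ : IsCharL ψ) (hne : ∃ x, ψ x ≠ 1) (hμ : IsHaarL μ)
    {Φ : k × k → ℂ} (hΦ : IsSB Φ) :
    ∃ R : ℝ, ∀ ξ : k × k, ftL t n ψ μ Φ ξ ≠ 0 → ‖ξ‖ ≤ R := by
  obtain ⟨δ, hδ, hinv⟩ := sb_uniform496 hΦ
  obtain ⟨ϖ, hϖ0, hϖδ⟩ := NormedField.exists_norm_lt k hδ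
  obtain ⟨x₀, hx₀⟩ := hne
  have hDn : 0 < ‖t ^ 2 - 4 * n‖ := norm_pos_iff.2 hD
  set R₁ : ℝ := ‖x₀‖ / ‖ϖ‖ with hR₁
  have hR₁0 : 0 ≤ R₁ := div_nonneg (norm_nonneg _) (norm_nonneg _)
  set Cc : ℝ := ‖t‖ + ‖(2 : k) * n‖ + ‖(2 : k)‖ with hCc
  have hCc0 : 0 ≤ Cc := by
    have := norm_nonneg (2 : k)
    have := norm_nonneg t
    have := norm_nonneg ((2 : k) * n)
    rw [hCc]; linarith
  refine ⟨Cc * R₁ / ‖t ^ 2 - 4 * n‖, fun ξ hξ => ?_⟩
  -- `ψ (B(ξ, λ)) = 1` on the small ball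
  have h1 : ∀ l : k × k, ‖l‖ < δ → ψ (bfL t n ξ l) = 1 := by
    intro l hl
    have h := ftL_eq_mul496 t n hψ hμ l (fun y => hinv y l hl) ξ
    have h' : (ψ (bfL t n ξ l) - 1) * ftL t n ψ μ Φ ξ = 0 := by
      rw [sub_mul, one_mul, ← h, sub_self]
    rcases mul_eq_zero.mp h' with h0 | h0
    · exact sub_eq_zero.mp h0
    · exact absurd h0 hξ
  -- hence `|B(ξ, λ)| < |x₀|` on the small ball
  have h2 : ∀ l : k × k, ‖l‖ < δ → ‖bfL t n ξ l‖ < ‖x₀‖ := by
    intro l hl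
    by_contra hcon
    rw [not_lt] at hcon
    have hx₀0 : x₀ ≠ 0 := by
      intro h0
      rw [h0, char_zero496 hψ] at hx₀
      exact hx₀ rfl
    have hb0 : bfL t n ξ l ≠ 0 := by
      intro h0
      rw [h0, norm_zero] at hcon
      exact hx₀0 (norm_le_zero_iff.mp hcon)
    set c : k := x₀ / bfL t n ξ l with hc
    have hc1 : ‖c‖ ≤ 1 := by
      rw [hc, norm_div]
      exact (div_le_one (norm_pos_iff.2 hb0)).2 hcon
    have hcl : ‖c • l‖ < δ := by
      rw [norm_smul]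
      calc ‖c‖ * ‖l‖ ≤ 1 * ‖l‖ := mul_le_mul_of_nonneg_right hc1 (norm_nonneg _)
        _ = ‖l‖ := one_mul _
        _ < δ := hl
    have := h1 (c • l) hcl
    rw [bfL_smul_right496, hc, div_mul_cancel₀ _ hb0] at this
    exact hx₀ this
  have hl1 : ‖((ϖ, 0) : k × k)‖ < δ := by
    rw [Prod.norm_def]
    simpa using hϖδ
  have hl2 : ‖((0, ϖ) : k × k)‖ < δ := by
    rw [Prod.norm_def]
    simpa using hϖδ
  have hu := h2 _ hl1
  have hw := h2 _ hl2
  rw [bfL_e1_496, norm_mul] at hu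
  rw [bfL_e2_496, norm_mul] at hw
  set u : k := 2 * ξ.1 + t * ξ.2 with hu_def
  set w : k := t * ξ.1 + 2 * n * ξ.2 with hw_def
  have hu' : ‖u‖ ≤ R₁ := by
    rw [hR₁, le_div_iff₀ hϖ0, mul_comm]
    exact hu.le
  have hw' : ‖w‖ ≤ R₁ := by
    rw [hR₁, le_div_iff₀ hϖ0, mul_comm]
    exact hw.le
  have e1 : (t ^ 2 - 4 * n) * ξ.1 = t * w - 2 * n * u := by
    rw [hu_def, hw_def]; ring
  have e2 : (t ^ 2 - 4 * n) * ξ.2 = t * u - 2 * w := by
    rw [hu_def, hw_def]; ring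
  have b1 : ‖t ^ 2 - 4 * n‖ * ‖ξ.1‖ ≤ Cc * R₁ := by
    rw [← norm_mul, e1]
    calc ‖t * w - 2 * n * u‖ ≤ ‖t * w‖ + ‖2 * n * u‖ := norm_sub_le _ _
      _ = ‖t‖ * ‖w‖ + ‖(2 : k) * n‖ * ‖u‖ := by rw [norm_mul, norm_mul (2 * n) u]
      _ ≤ ‖t‖ * R₁ + ‖(2 : k) * n‖ * R₁ :=
          add_le_add (mul_le_mul_of_nonneg_left hw' (norm_nonneg _))
            (mul_le_mul_of_nonneg_left hu' (norm_nonneg _))
      _ ≤ Cc * R₁ := by
          rw [hCc]
          have := mul_nonneg (norm_nonneg (2 : k)) hR₁0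
          nlinarith
  have b2 : ‖t ^ 2 - 4 * n‖ * ‖ξ.2‖ ≤ Cc * R₁ := by
    rw [← norm_mul, e2]
    calc ‖t * u - 2 * w‖ ≤ ‖t * u‖ + ‖2 * w‖ := norm_sub_le _ _
      _ = ‖t‖ * ‖u‖ + ‖(2 : k)‖ * ‖w‖ := by rw [norm_mul, norm_mul 2 w]
      _ ≤ ‖t‖ * R₁ + ‖(2 : k)‖ * R₁ :=
          add_le_add (mul_le_mul_of_nonneg_left hu' (norm_nonneg _))
            (mul_le_mul_of_nonneg_left hw' (norm_nonneg _))
      _ ≤ Cc * R₁ := by
          rw [hCc]
          have := mul_nonneg (norm_nonneg ((2 : k) * n)) hR₁0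
          nlinarith
  rw [Prod.norm_def, max_le_iff]
  constructor
  · rw [le_div_iff₀ hDn, mul_comm]
    exact b1
  · rw [le_div_iff₀ hDn, mul_comm]
    exact b2

/-- **The Fourier transform preserves the Schwartz--Bruhat functions** (general nonarchimedean
local field). -/
theorem ftsb_general496 (t n : k) {ψ : k → ℂ} {μ : @Measure k (borel k)}
    (hD : t ^ 2 - 4 * n ≠ 0) (hψ : IsCharL ψ) (hne : ∃ x, ψ x ≠ 1) (hμ : IsHaarL μ) :
    FTSBAt t n ψ μ := by
  intro Φ hΦ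
  refine ⟨ftL_locallyConstant496 t n μ hψ hΦ, ?_⟩
  obtain ⟨R, hR⟩ := ftL_support_bounded496 t n hD hψ hne hμ hΦ
  refine HasCompactSupport.of_support_subset_isCompact (isCompact_closedBall (0 : k × k) R) ?_
  intro ξ hξ
  rw [mem_closedBall_zero_iff]
  exact hR ξ hξ

end Haar

end Field

/-! ## 3. The leaf -/

/-- **LEAF `A2.03.1.1.LF.03` = `LF361.FTSBC`**: at every finite place of every number field the
Fourier transform preserves the Schwartz--Bruhat functions. -/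
theorem ftsbC496 : FTSBC := by
  intro K _ _ v t n ψ μ hD hψ hne hμ
  haveI : ProperSpace (v.adicCompletion K) :=
    Valued.integer.properSpace_iff_compactSpace_integer.mpr
      (Fermat.Agent.LT.H767.compactSpace_integer_adicCompletion K v)
  exact ftsb_general496 t n hD hψ hne hμ

end Fermat.Agent.LT.A2.LF496

end
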